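import Fermat.Agent.LT.T7.H309.Dn2Spec
import Fermat.Agent.LT.T7.H340.IwKit

/-!
# Row LT, tower T7, leaf T7.L2.1.H2a.4.5.D `Dn2CommC309` (helper661, registry 3032)

OFF-MAIN.  ADDITIVE (new names only, suffix `661`).  Vocabulary: `T7/H309/Dn2Spec` (helper309,
sha256 2e8b57c8), kit `T7/H340/IwKit` (helper340, sha256 93078bb8) with the tools of helper129;
byte-identical copies.  No hole, nothing assumed beyond the two sister leaves.

    dn2Comm661 : Dn2NatC309 K K' → Dn2SuppC309 K K' → Dn2CommC309 K K'      (CONDITIONAL FORM)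

The sister leaf `Dn2NatC309` is used ONLY through its first clause (`f₂` is a test function:
continuous with compact support, so that the finite sum can be taken out of the integral), and
`Dn2SuppC309` ONLY through `f₂ y ≠ 0 → InIwahori u y`.

* `central_scalar661` : a scalar uniformiser is central.
* `rconv_shift661` : `R(φ)` commutes with the translation by `z ^ k` (every `φ`, `ψ`, `μ`).
* `iwSum_swap661` : for `y` in the Iwahori subgroup at `u` and `ψ` right invariant under the
  local elements of the Iwahori subgroup at `u`:  `∑_h ψ(x y h) = ∑_h ψ(x h y)`.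
* `rconv_iwOp661` : `R(φ)` commutes with the Iwahori operator at `u` for `φ` continuous with
  compact support, supported in `{y : y_u ∈ I_u}`, `ψ` continuous and Iwahori invariant.
-/

set_option autoImplicit false

open AutomorphicForm IsDedekindDomain NumberField MeasureTheory
open scoped ComplexConjugate

noncomputable section

namespace Fermat.Agent.LT.T7.H661

open Fermat.Agent.LT.H556 Fermat.Agent.LT.H556.A0 Fermat.Agent.LT.T7 Fermat.Agent.LT.H129
open Fermat.Agent.LT.T7.H305 Fermat.Agent.LT.T7.H893 Fermat.Agent.LT.T7.B981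
open Fermat.Agent.LT.T7.B970 Fermat.Agent.LT.T7.H340 Fermat.Agent.LT.T7.H309.Dn2

attribute [local instance] Fermat.Agent.LT.T5.instMeasurableSpaceG

section Kit

variable {K : Type} [Field K] [NumberField K]

/-- A scalar uniformiser is central. -/
theorem central_scalar661 {w : HeightOneSpectrum (𝓞 K)} {z : G K}
    (hz : IsScalarUniformizerAt w z) (g : G K) : z * g = g * z := by
  obtain ⟨hzloc, c, -, hzc⟩ := hz
  rw [isLocalAtFin_iff129] at hzloc
  apply G_ext129
  · intro u
    rw [map_mul, map_mul, hzloc.1 u, one_mul, mul_one]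
  · intro v
    by_cases hv : v = w
    · subst hv
      apply Units.ext
      rw [map_mul, map_mul, Matrix.GeneralLinearGroup.coe_mul,
        Matrix.GeneralLinearGroup.coe_mul, coe_finCompHom129, coe_finCompHom129, hzc]
      ext i j
      rw [Matrix.diagonal_mul, Matrix.mul_diagonal, mul_comm]
    · rw [map_mul, map_mul, hzloc.2 v hv, one_mul, mul_one]

theorem borelSpace661 : BorelSpace (G K) := ⟨rfl⟩

/-- `R(φ)` commutes with the translation by `z ^ k`, `z` a scalar uniformiser. -/
theorem rconv_shift661 {w : HeightOneSpectrum (𝓞 K)} {z : G K}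
    (hz : IsScalarUniformizerAt w z) (μ : Measure (G K)) (φ ψ : G K → ℂ) (k : ℤ) (x : G K) :
    T5.Rconv μ φ (shiftOp z k ψ) x = shiftOp z k (T5.Rconv μ φ ψ) x := by
  unfold T5.Rconv shiftOp
  congr 1
  funext y
  have hc : Commute z y := central_scalar661 hz y
  have hck : z ^ k * y = y * z ^ k := (hc.zpow_left k).eq
  rw [mul_assoc, ← hck, ← mul_assoc]

/-- For `y` in the Iwahori subgroup at `u` and `ψ` right invariant under the local elements of
the Iwahori subgroup at `u`: `∑_h ψ(x y h) = ∑_h ψ(x h y)`. -/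
theorem iwSum_swap661 {u : HeightOneSpectrum (𝓞 K)} {ψ : G K → ℂ}
    (hψ : ∀ k : G K, IsLocalAtFin u k → T5.InIwahori u k → ∀ g : G K, ψ (g * k) = ψ g)
    {H : Finset (G K)} (hH : IsIwCosetSystem u H) {y : G K} (hy : T5.InIwahori u y) (x : G K) :
    ∑ h ∈ H, ψ (x * y * h) = ∑ h ∈ H, ψ (x * h * y) := by
  classical
  set yw : G K := locFin129 u (finCompHom129 u y) with hyw
  set y' : G K := y * yw⁻¹ with hy'
  have hywloc : IsLocalAtFin u yw := isLocalAtFin_locFin129 _ _
  have hywI : T5.InIwahori u yw := by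
    rw [inIwahori_iff340, hyw, finCompHom129_locFin129, ← inIwahori_iff340]
    exact hy
  have hy'w : finCompHom129 u y' = 1 := by
    rw [hy', map_mul, map_inv, hyw, finCompHom129_locFin129, mul_inv_cancel]
  have hyy : y = y' * yw := by rw [hy']; group
  have hcw : yw * y' = y' * yw := commute_of_local340 hywloc hy'w
  -- the right-hand side
  have hR : ∀ h ∈ H, ψ (x * h * y) = ψ (x * y' * h) := by
    intro h hh
    have hcomm : h * y' = y' * h := commute_of_local340 (hH.2.1 h hh).1 hy'w
    have e : x * h * y = x * y' * h * yw := by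
      rw [hyy, mul_assoc x h, ← mul_assoc h, hcomm]
      group
    rw [e]
    exact hψ yw hywloc hywI _
  -- the left-hand side
  have hL : ∀ h ∈ H, ψ (x * y * h) = ψ (x * y' * (yw * h)) := by
    intro h _
    congr 1
    rw [hyy]
    group
  rw [Finset.sum_congr rfl hL, Finset.sum_congr rfl hR]
  have himg : ∑ h ∈ H, ψ (x * y' * (yw * h))
      = ∑ h ∈ H.image (fun h => yw * h), ψ (x * y' * h) := by
    rw [Finset.sum_image (fun a _ b _ hab => mul_right_injective yw hab)]
  rw [himg]
  exact iwSum_indep340 (isIwCosetSystem_translate340 hH hywloc hywI) hH ψ hψ (x * y')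

/-- `R(φ)` commutes with the Iwahori operator at `u`, for `φ` continuous with compact support,
supported in `{y : y_u ∈ I_u}`, and `ψ` continuous, right invariant under the local elements of
the Iwahori subgroup at `u`. -/
theorem rconv_iwOp661 {u : HeightOneSpectrum (𝓞 K)} {μ : Measure (G K)}
    (hμ : μ.IsHaarMeasure) {φ ψ : G K → ℂ} (hφc : Continuous φ) (hφs : HasCompactSupport φ)
    (hφI : ∀ y : G K, φ y ≠ 0 → T5.InIwahori u y) (hψc : Continuous ψ)
    (hψ : ∀ k : G K, IsLocalAtFin u k → T5.InIwahori u k → ∀ g : G K, ψ (g * k) = ψ g)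
    {H : Finset (G K)} (hH : IsIwCosetSystem u H) (x : G K) :
    T5.Rconv μ φ (iwOp u H ψ) x = iwOp u H (T5.Rconv μ φ ψ) x := by
  classical
  have hB : BorelSpace (G K) := borelSpace661
  have hint : ∀ h ∈ H, Integrable (fun y => φ y * ψ (x * h * y)) μ := by
    intro h _
    have hcont : Continuous fun y => φ y * ψ (x * h * y) :=
      hφc.mul (hψc.comp (continuous_const_mul (x * h)))
    exact hcont.integrable_of_hasCompactSupport hφs.mul_right
  unfold T5.Rconv iwOp
  rw [← integral_finsetSum H hint, ← integral_const_mul]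
  congr 1
  funext y
  by_cases h0 : φ y = 0
  · simp [h0]
  · rw [iwSum_swap661 hψ hH (hφI y h0) x, Finset.mul_sum, Finset.mul_sum, Finset.mul_sum]
    refine Finset.sum_congr rfl fun h _ => ?_
    ring

end Kit

section Leaf

variable (K K' : Type) [Field K] [NumberField K] [Field K'] [NumberField K'] [Algebra K K']

/-- **LEAF D2.D = COMM**, conditional form: from the sister leaves `Dn2NatC309` (only its first
clause: `f₂` is a test function) and `Dn2SuppC309` (only `f₂ y ≠ 0 → InIwahori u y`). -/
theorem dn2Comm661 (hNat : Dn2NatC309 K K') (hSupp : Dn2SuppC309 K K') : Dn2CommC309 K K' := by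
  intro ℓ Φ B 𝔫 μc T₀ n n₀ m a D a' D' s β b c₁ Φ₁ F₁ hyp c ψ hψ H z hH hz
  obtain ⟨htest, -⟩ := hNat ℓ Φ B 𝔫 μc T₀ n n₀ m a D a' D' s β b c₁ Φ₁ F₁ hyp c
  obtain ⟨C, -, hC⟩ := hSupp ℓ Φ B 𝔫 μc T₀ n n₀ m a D a' D' s β b c₁ Φ₁ F₁ hyp c
  refine ⟨fun x => ?_, fun k x => ?_⟩
  · exact rconv_iwOp661 hyp.base.frame.frame.haar htest.cont htest.supp
      (fun y hy => (hC y hy).1 0 Nat.one_pos) hψ.cusp.cont
      (fun k hk hkI g => isIwInv_local340 hψ.iw (j₀ := 0) Nat.one_pos k hk hkI g) hH x
  · exact rconv_shift661 hz _ _ _ k x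

end Leaf

end Fermat.Agent.LT.T7.H661

end
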